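/-
T7.14.6c.1 (helper502): `NormValC568`, VERBATIM against `LT/T7/H568/IdeleSpec.lean`
(helper568@4cfb36664, sha256 ce2f0c61e936d040).

On the support of the model Kirillov functions the ideal `idl568 S y` is non-zero and prime to
`S`, and `|y|_𝔸 = ∏_w r_w^{[K_w:ℝ]} · t₀ / N(idl568 S y)`.
-/
import Mathlib
import Fermat.Agent.LT.T7.H568.IdeleSpec

set_option autoImplicit false

open AutomorphicForm IsDedekindDomain NumberField Filter Topology

noncomputable section

namespace Fermat.Agent.LT.T7.H502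

open Fermat.Agent.LT.H556 Fermat.Agent.LT.H556.A0 Fermat.Agent.LT.T7 Fermat.Agent.LT.T7.Rigid
open Fermat.Agent.LT.T7.H568

variable {K : Type} [Field K] [NumberField K]

/-! ## The norm of the completion in terms of the valuation -/

theorem norm_eq_zpow502 (v : HeightOneSpectrum (𝓞 K)) (x : v.adicCompletion K) (hx : x ≠ 0) :
    ‖x‖ = (Ideal.absNorm v.asIdeal : ℝ) ^ (WithZero.log (Valued.v x)) := by
  have hv : (Valued.v x : WithZero (Multiplicative ℤ)) ≠ 0 := (Valuation.ne_zero_iff _).2 hx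
  rw [NumberField.FinitePlace.norm_def, WithZeroMulInt.toNNReal_neg_apply _ hv,
    WithZero.toAdd_unzero_eq_log]
  push_cast
  rfl

theorem norm_eq_one_of_val502 (v : HeightOneSpectrum (𝓞 K)) (x : v.adicCompletion K)
    (hx : Valued.v x = 1) : ‖x‖ = 1 := by
  have hx0 : x ≠ 0 := by
    intro h
    rw [h, map_zero] at hx
    exact zero_ne_one hx
  rw [norm_eq_zpow502 v x hx0, hx, WithZero.log_one, zpow_zero]

/-! ## Ideles: components at the finite places -/

theorem snd_mul_inv502 (y : (Adl K)ˣ) (v : HeightOneSpectrum (𝓞 K)) :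
    (y : Adl K).2 v * ((y⁻¹ : (Adl K)ˣ) : Adl K).2 v = 1 := by
  have h1 : ((y : Adl K) * ((y⁻¹ : (Adl K)ˣ) : Adl K)).2 v = (1 : Adl K).2 v := by
    rw [Units.mul_inv]
  exact h1

theorem eventually_int502 (x : Adl K) :
    ∀ᶠ v : HeightOneSpectrum (𝓞 K) in cofinite, Valued.v (x.2 v) ≤ 1 := by
  let z : RestrictedProduct (fun v : HeightOneSpectrum (𝓞 K) => v.adicCompletion K)
      (fun v => (v.adicCompletionIntegers K : Set (v.adicCompletion K))) cofinite := x.2
  have h : ∀ᶠ v : HeightOneSpectrum (𝓞 K) in cofinite,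
      z v ∈ (v.adicCompletionIntegers K : Set (v.adicCompletion K)) :=
    z.2
  exact h

theorem eventually_val_eq_one502 (y : (Adl K)ˣ) :
    ∀ᶠ v : HeightOneSpectrum (𝓞 K) in cofinite, Valued.v ((y : Adl K).2 v) = 1 := by
  filter_upwards [eventually_int502 (y : Adl K),
    eventually_int502 ((y⁻¹ : (Adl K)ˣ) : Adl K)] with v h1 h2
  have hm := snd_mul_inv502 y v
  have hv : Valued.v ((y : Adl K).2 v) * Valued.v (((y⁻¹ : (Adl K)ˣ) : Adl K).2 v) = 1 := by
    rw [← map_mul, hm, map_one]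
  refine le_antisymm h1 ?_
  by_contra hlt
  rw [not_le] at hlt
  have hne : Valued.v (((y⁻¹ : (Adl K)ˣ) : Adl K).2 v) ≠ 0 := by
    intro h0
    rw [h0, mul_zero] at hv
    exact zero_ne_one hv
  have : Valued.v ((y : Adl K).2 v) * Valued.v (((y⁻¹ : (Adl K)ˣ) : Adl K).2 v) < 1 := by
    calc Valued.v ((y : Adl K).2 v) * Valued.v (((y⁻¹ : (Adl K)ˣ) : Adl K).2 v)
        < 1 * Valued.v (((y⁻¹ : (Adl K)ˣ) : Adl K).2 v) :=
          mul_lt_mul_of_pos_right hlt (zero_lt_iff.2 hne)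
      _ ≤ 1 * 1 := by gcongr
      _ = 1 := one_mul 1
  exact absurd hv this.ne

theorem finite_val_ne_one502 (y : (Adl K)ˣ) :
    {v : HeightOneSpectrum (𝓞 K) | Valued.v ((y : Adl K).2 v) ≠ 1}.Finite := by
  have := eventually_val_eq_one502 y
  rwa [Filter.eventually_cofinite] at this

theorem ordI_eq_zero_of_val502 (y : (Adl K)ˣ) (v : HeightOneSpectrum (𝓞 K))
    (h : Valued.v ((y : Adl K).2 v) = 1) : ordI v y = 0 := by
  unfold ordI
  rw [h, WithZero.log_one, neg_zero]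

theorem norm_snd_eq502 (y : (Adl K)ˣ) (v : HeightOneSpectrum (𝓞 K)) :
    ‖(y : Adl K).2 v‖ = (Ideal.absNorm v.asIdeal : ℝ) ^ (-(ordI v y)) := by
  rw [norm_eq_zpow502 v _ (unit_snd_ne_zero568 y v)]
  unfold ordI
  rw [neg_neg]

/-! ## The cell at the places of `S` -/

theorem val_lt_one_of_mem_closure502 (𝔪 : Ideal (𝓞 K)) (v : HeightOneSpectrum (𝓞 K))
    (hv : v.asIdeal ∣ 𝔪) (u : v.adicCompletion K) (hu : u ∈ idealClosure 𝔪 v) :
    Valued.v u < 1 := by
  unfold idealClosure at hu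
  rw [Metric.mem_closure_iff] at hu
  obtain ⟨b, ⟨x, hx, rfl⟩, hb⟩ := hu 1 one_pos
  have hxv : Valued.v (algebraMap K (v.adicCompletion K) (algebraMap (𝓞 K) K x)) < 1 := by
    have hxm : x ∈ v.asIdeal := Ideal.le_of_dvd hv hx
    have h1 : algebraMap K (v.adicCompletion K) (algebraMap (𝓞 K) K x)
        = ((algebraMap (𝓞 K) K x : K) : v.adicCompletion K) := rfl
    rw [h1, HeightOneSpectrum.valuedAdicCompletion_eq_valuation',
      HeightOneSpectrum.valuation_lt_one_iff_mem]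
    exact hxm
  rw [dist_eq_norm, Valued.toNormedField.norm_lt_one_iff] at hb
  calc Valued.v u
      = Valued.v ((u - algebraMap K (v.adicCompletion K) (algebraMap (𝓞 K) K x))
          + algebraMap K (v.adicCompletion K) (algebraMap (𝓞 K) K x)) := by
        rw [sub_add_cancel]
    _ ≤ max (Valued.v (u - algebraMap K (v.adicCompletion K) (algebraMap (𝓞 K) K x)))
          (Valued.v (algebraMap K (v.adicCompletion K) (algebraMap (𝓞 K) K x))) :=
        Valuation.map_add _ _ _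
    _ < 1 := max_lt hb hxv

theorem norm_cell502 (S : Finset (HeightOneSpectrum (𝓞 K))) (𝔪 : Ideal (𝓞 K))
    (y₀ y : (Adl K)ˣ) (hsupp : IsSupp S 𝔪) (hy : InCell S 𝔪 y₀ y)
    (v : HeightOneSpectrum (𝓞 K)) (hv : v ∈ S) :
    ‖(y : Adl K).2 v‖ = ‖(y₀ : Adl K).2 v‖ := by
  obtain ⟨u, hu, hyu⟩ := hy v hv
  have hlt := val_lt_one_of_mem_closure502 𝔪 v ((hsupp.2 v).2 hv) u hu
  have h1 : Valued.v (1 + u) = 1 := Valuation.map_one_add_of_lt _ hlt
  rw [hyu, norm_mul, norm_eq_one_of_val502 v _ h1, mul_one]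

/-! ## The ideal of an idele outside `S` -/

open Classical in
/-- The factor of `idl568` at the place `v`. -/
def idlF502 (S : Finset (HeightOneSpectrum (𝓞 K))) (y : (Adl K)ˣ)
    (v : HeightOneSpectrum (𝓞 K)) : Ideal (𝓞 K) :=
  if v ∈ S then (1 : Ideal (𝓞 K)) else v.asIdeal ^ (ordI v y).toNat

theorem idl568_eq502 (S : Finset (HeightOneSpectrum (𝓞 K))) (y : (Adl K)ˣ) :
    idl568 S y = ∏ᶠ v : HeightOneSpectrum (𝓞 K), idlF502 S y v := rfl

theorem idlF_eq_one502 (S : Finset (HeightOneSpectrum (𝓞 K))) (y : (Adl K)ˣ)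
    (v : HeightOneSpectrum (𝓞 K)) (h : Valued.v ((y : Adl K).2 v) = 1) :
    idlF502 S y v = 1 := by
  unfold idlF502
  split_ifs
  · rfl
  · rw [ordI_eq_zero_of_val502 y v h, Int.toNat_zero, pow_zero]

theorem idlF_ne_bot502 (S : Finset (HeightOneSpectrum (𝓞 K))) (y : (Adl K)ˣ)
    (v : HeightOneSpectrum (𝓞 K)) : idlF502 S y v ≠ ⊥ := by
  unfold idlF502
  split_ifs
  · rw [Ideal.one_eq_top]
    exact top_ne_bot
  · exact pow_ne_zero _ v.ne_bot

theorem idlF_not_le502 (S : Finset (HeightOneSpectrum (𝓞 K))) (y : (Adl K)ˣ)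
    (v v₀ : HeightOneSpectrum (𝓞 K)) (hv₀ : v₀ ∈ S) : ¬ idlF502 S y v ≤ v₀.asIdeal := by
  unfold idlF502
  split_ifs with hv
  · rw [Ideal.one_eq_top, top_le_iff]
    exact v₀.isPrime.ne_top
  · intro hle
    have h1 : v.asIdeal ≤ v₀.asIdeal := v₀.isPrime.le_of_pow_le hle
    have h2 : v.asIdeal = v₀.asIdeal :=
      (v.isMaximal.eq_of_le v₀.isPrime.ne_top h1)
    have h3 : v = v₀ := HeightOneSpectrum.ext h2
    exact hv (h3 ▸ hv₀)

theorem idl_eq_prod502 (S : Finset (HeightOneSpectrum (𝓞 K))) (y : (Adl K)ˣ)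
    (T : Finset (HeightOneSpectrum (𝓞 K)))
    (hT : ∀ v : HeightOneSpectrum (𝓞 K), Valued.v ((y : Adl K).2 v) ≠ 1 → v ∈ T) :
    idl568 S y = ∏ v ∈ T, idlF502 S y v := by
  rw [idl568_eq502]
  refine finprod_eq_prod_of_mulSupport_subset _ ?_
  intro v hv
  rw [Function.mem_mulSupport] at hv
  by_contra hvT
  refine hv (idlF_eq_one502 S y v ?_)
  by_contra h
  exact hvT (Finset.mem_coe.2 (hT v h))

theorem primeTo_idl502 (S : Finset (HeightOneSpectrum (𝓞 K))) (y : (Adl K)ˣ) :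
    PrimeTo568 S (idl568 S y) := by
  classical
  have hT : ∀ v : HeightOneSpectrum (𝓞 K), Valued.v ((y : Adl K).2 v) ≠ 1 →
      v ∈ (finite_val_ne_one502 y).toFinset := fun v hv => by
    rw [Set.Finite.mem_toFinset]
    exact hv
  rw [idl_eq_prod502 S y _ hT]
  refine ⟨?_, fun v₀ hv₀ hle => ?_⟩
  · rw [← Ideal.zero_eq_bot, Finset.prod_ne_zero_iff]
    intro v _
    exact idlF_ne_bot502 S y v
  · obtain ⟨v, -, hv⟩ := (Ideal.IsPrime.prod_le v₀.isPrime).1 hle
    exact idlF_not_le502 S y v v₀ hv₀ hv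

/-! ## The norm of an idele on the support -/

open Classical in
theorem absNorm_idlF502 (S : Finset (HeightOneSpectrum (𝓞 K))) (y : (Adl K)ˣ)
    (v : HeightOneSpectrum (𝓞 K)) :
    (Ideal.absNorm (idlF502 S y v) : ℝ)
      = if v ∈ S then 1 else (Ideal.absNorm v.asIdeal : ℝ) ^ (ordI v y).toNat := by
  unfold idlF502
  split_ifs
  · simp
  · rw [map_pow]
    push_cast
    rfl

theorem norm_snd_off502 (y : (Adl K)ˣ)
    (v : HeightOneSpectrum (𝓞 K)) (hv : 0 ≤ ordI v y) :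
    ‖(y : Adl K).2 v‖ = 1 / (Ideal.absNorm v.asIdeal : ℝ) ^ (ordI v y).toNat := by
  rw [norm_snd_eq502, zpow_neg, one_div]
  congr 1
  conv_lhs => rw [← Int.toNat_of_nonneg hv]
  rw [zpow_natCast]

/-- **T7.14.6c.1 `NormValC568`.** -/
theorem normValC502 (K : Type) [Field K] [NumberField K] : NormValC568 K := by
  classical
  intro S 𝔪 y₀ hsupp y hy
  obtain ⟨hcell, hord⟩ := hy
  refine ⟨primeTo_idl502 S y, ?_⟩
  set T : Finset (HeightOneSpectrum (𝓞 K)) := S ∪ (finite_val_ne_one502 y).toFinset with hTdef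
  have hT : ∀ v : HeightOneSpectrum (𝓞 K), Valued.v ((y : Adl K).2 v) ≠ 1 → v ∈ T :=
    fun v hv => Finset.mem_union_right _ (by rw [Set.Finite.mem_toFinset]; exact hv)
  have hST : S ⊆ T := Finset.subset_union_left
  -- the finite part of the norm
  have hfin : ∏ᶠ v : HeightOneSpectrum (𝓞 K), ‖(y : Adl K).2 v‖
      = ∏ v ∈ T, ‖(y : Adl K).2 v‖ := by
    refine finprod_eq_prod_of_mulSupport_subset _ ?_
    intro v hv
    rw [Function.mem_mulSupport] at hv
    by_contra hvT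
    refine hv (norm_eq_one_of_val502 v _ ?_)
    by_contra h
    exact hvT (Finset.mem_coe.2 (hT v h))
  -- the factors
  have hfac : ∀ v ∈ T, ‖(y : Adl K).2 v‖
      = (if v ∈ S then ‖(y₀ : Adl K).2 v‖ else 1)
        / (if v ∈ S then 1 else (Ideal.absNorm v.asIdeal : ℝ) ^ (ordI v y).toNat) := by
    intro v _
    by_cases hv : v ∈ S
    · rw [if_pos hv, if_pos hv, div_one]
      exact norm_cell502 S 𝔪 y₀ y hsupp hcell v hv
    · rw [if_neg hv, if_neg hv]
      exact norm_snd_off502 y v (hord v hv)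
  have hA : ∏ v ∈ T, (if v ∈ S then ‖(y₀ : Adl K).2 v‖ else 1) = cellNorm568 S y₀ := by
    rw [Finset.prod_ite_mem, Finset.inter_eq_right.2 hST]
    rfl
  have hB : ∏ v ∈ T, (if v ∈ S then 1 else (Ideal.absNorm v.asIdeal : ℝ) ^ (ordI v y).toNat)
      = (Ideal.absNorm (idl568 S y) : ℝ) := by
    rw [idl_eq_prod502 S y T hT, map_prod]
    push_cast
    refine Finset.prod_congr rfl fun v _ => ?_
    rw [absNorm_idlF502]
  unfold Fermat.Agent.LT.T5.adNorm
  rw [hfin, Finset.prod_congr rfl hfac, Finset.prod_div_distrib, hA, hB, mul_div_assoc]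
  rfl

end Fermat.Agent.LT.T7.H502

end
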