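/-
T7.14.3d (helper502): `IdeleClassC`, VERBATIM against `LT/T7/H671/LimSpec.lean`
(helper671@9970285d6, sha256 4ba8fdf5f43f3db7).

Finitely many classes of finite ideles modulo `Kˣ` and the units at the finite places: the
fractional ideal of a finite idele, its class in `ClassGroup (𝓞 K)` (finite), and a choice of
pairwise inequivalent representatives.
-/
import Mathlib
import Fermat.Agent.LT.T7.H671.LimSpec

set_option autoImplicit false

open IsDedekindDomain NumberField Filter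
open scoped nonZeroDivisors

noncomputable section

namespace Fermat.Agent.LT.T7.H502

open Fermat.Agent.LT.T7.H671

variable {K : Type} [Field K] [NumberField K]

/-! ## The norm of the completion in terms of the valuation -/

theorem ic_norm_eq_zpow502 (v : HeightOneSpectrum (𝓞 K)) (x : v.adicCompletion K) (hx : x ≠ 0) :
    ‖x‖ = (Ideal.absNorm v.asIdeal : ℝ) ^ (WithZero.log (Valued.v x)) := by
  have hv : (Valued.v x : WithZero (Multiplicative ℤ)) ≠ 0 := (Valuation.ne_zero_iff _).2 hx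
  rw [NumberField.FinitePlace.norm_def, WithZeroMulInt.toNNReal_neg_apply _ hv,
    WithZero.toAdd_unzero_eq_log]
  push_cast
  rfl

theorem ic_absNorm_pos502 (v : HeightOneSpectrum (𝓞 K)) :
    0 < (Ideal.absNorm v.asIdeal : ℝ) := by
  have := HeightOneSpectrum.one_lt_absNorm v
  exact_mod_cast (zero_lt_one.trans this)

/-! ## Finite ideles -/

/-- The order of the finite idele `a` at `v`. -/
def icOrd502 (a : (FiniteAdeleRing (𝓞 K) K)ˣ) (v : HeightOneSpectrum (𝓞 K)) : ℤ :=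
  -(WithZero.log (Valued.v ((a : FiniteAdeleRing (𝓞 K) K) v)))

theorem ic_mul_inv502 (a : (FiniteAdeleRing (𝓞 K) K)ˣ) (v : HeightOneSpectrum (𝓞 K)) :
    (a : FiniteAdeleRing (𝓞 K) K) v * ((a⁻¹ : (FiniteAdeleRing (𝓞 K) K)ˣ) :
      FiniteAdeleRing (𝓞 K) K) v = 1 := by
  have h1 : ((a : FiniteAdeleRing (𝓞 K) K) * ((a⁻¹ : (FiniteAdeleRing (𝓞 K) K)ˣ) :
      FiniteAdeleRing (𝓞 K) K)) v = (1 : FiniteAdeleRing (𝓞 K) K) v := by
    rw [Units.mul_inv]
  exact h1

theorem ic_ne_zero502 (a : (FiniteAdeleRing (𝓞 K) K)ˣ) (v : HeightOneSpectrum (𝓞 K)) :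
    (a : FiniteAdeleRing (𝓞 K) K) v ≠ 0 := by
  intro h
  have := ic_mul_inv502 a v
  rw [h, zero_mul] at this
  exact zero_ne_one this

theorem ic_eventually_int502 (x : FiniteAdeleRing (𝓞 K) K) :
    ∀ᶠ v : HeightOneSpectrum (𝓞 K) in cofinite, Valued.v (x v) ≤ 1 := by
  let z : RestrictedProduct (fun v : HeightOneSpectrum (𝓞 K) => v.adicCompletion K)
      (fun v => (v.adicCompletionIntegers K : Set (v.adicCompletion K))) cofinite := x
  have h : ∀ᶠ v : HeightOneSpectrum (𝓞 K) in cofinite,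
      z v ∈ (v.adicCompletionIntegers K : Set (v.adicCompletion K)) :=
    z.2
  exact h

theorem ic_eventually_one502 (a : (FiniteAdeleRing (𝓞 K) K)ˣ) :
    ∀ᶠ v : HeightOneSpectrum (𝓞 K) in cofinite,
      Valued.v ((a : FiniteAdeleRing (𝓞 K) K) v) = 1 := by
  filter_upwards [ic_eventually_int502 (a : FiniteAdeleRing (𝓞 K) K),
    ic_eventually_int502 ((a⁻¹ : (FiniteAdeleRing (𝓞 K) K)ˣ) : FiniteAdeleRing (𝓞 K) K)]
    with v h1 h2
  have hm := ic_mul_inv502 a v
  have hv : Valued.v ((a : FiniteAdeleRing (𝓞 K) K) v)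
      * Valued.v (((a⁻¹ : (FiniteAdeleRing (𝓞 K) K)ˣ) : FiniteAdeleRing (𝓞 K) K) v) = 1 := by
    rw [← map_mul, hm, map_one]
  refine le_antisymm h1 ?_
  by_contra hlt
  rw [not_le] at hlt
  have hne : Valued.v (((a⁻¹ : (FiniteAdeleRing (𝓞 K) K)ˣ) : FiniteAdeleRing (𝓞 K) K) v)
      ≠ 0 := by
    intro h0
    rw [h0, mul_zero] at hv
    exact zero_ne_one hv
  have : Valued.v ((a : FiniteAdeleRing (𝓞 K) K) v)
      * Valued.v (((a⁻¹ : (FiniteAdeleRing (𝓞 K) K)ˣ) : FiniteAdeleRing (𝓞 K) K) v) < 1 := by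
    calc Valued.v ((a : FiniteAdeleRing (𝓞 K) K) v)
          * Valued.v (((a⁻¹ : (FiniteAdeleRing (𝓞 K) K)ˣ) : FiniteAdeleRing (𝓞 K) K) v)
        < 1 * Valued.v (((a⁻¹ : (FiniteAdeleRing (𝓞 K) K)ˣ) : FiniteAdeleRing (𝓞 K) K) v) :=
          mul_lt_mul_of_pos_right hlt (zero_lt_iff.2 hne)
      _ ≤ 1 * 1 := by gcongr
      _ = 1 := one_mul 1
  exact absurd hv this.ne

theorem ic_eventually_ord502 (a : (FiniteAdeleRing (𝓞 K) K)ˣ) :
    ∀ᶠ v : HeightOneSpectrum (𝓞 K) in cofinite, icOrd502 a v = 0 := by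
  filter_upwards [ic_eventually_one502 a] with v hv
  unfold icOrd502
  rw [hv, WithZero.log_one, neg_zero]

theorem ic_finite_ord502 (a : (FiniteAdeleRing (𝓞 K) K)ˣ) :
    {v : HeightOneSpectrum (𝓞 K) | icOrd502 a v ≠ 0}.Finite := by
  have := ic_eventually_ord502 a
  rwa [Filter.eventually_cofinite] at this

theorem ic_norm502 (a : (FiniteAdeleRing (𝓞 K) K)ˣ) (v : HeightOneSpectrum (𝓞 K)) :
    ‖(a : FiniteAdeleRing (𝓞 K) K) v‖ = (Ideal.absNorm v.asIdeal : ℝ) ^ (-(icOrd502 a v)) := by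
  rw [ic_norm_eq_zpow502 v _ (ic_ne_zero502 a v)]
  unfold icOrd502
  rw [neg_neg]

/-! ## The fractional ideal of a finite idele -/

/-- The fractional ideal `∏_v v ^ ord_v a`. -/
def icIdeal502 (a : (FiniteAdeleRing (𝓞 K) K)ˣ) : FractionalIdeal (𝓞 K)⁰ K :=
  ∏ᶠ v : HeightOneSpectrum (𝓞 K), (v.asIdeal : FractionalIdeal (𝓞 K)⁰ K) ^ icOrd502 a v

theorem ic_count502 (a : (FiniteAdeleRing (𝓞 K) K)ˣ) (v : HeightOneSpectrum (𝓞 K)) :
    FractionalIdeal.count K v (icIdeal502 a) = icOrd502 a v :=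
  FractionalIdeal.count_finprod K v _ (ic_eventually_ord502 a)

theorem icIdeal_ne_zero502 (a : (FiniteAdeleRing (𝓞 K) K)ˣ) : icIdeal502 a ≠ 0 := by
  classical
  unfold icIdeal502
  have hs : (Function.mulSupport fun v : HeightOneSpectrum (𝓞 K) =>
      (v.asIdeal : FractionalIdeal (𝓞 K)⁰ K) ^ icOrd502 a v)
      ⊆ ((ic_finite_ord502 a).toFinset : Set (HeightOneSpectrum (𝓞 K))) := by
    intro v hv
    rw [Function.mem_mulSupport] at hv
    rw [Finset.mem_coe, Set.Finite.mem_toFinset]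
    intro h0
    apply hv
    rw [h0, zpow_zero]
  rw [finprod_eq_prod_of_mulSupport_subset _ hs, Finset.prod_ne_zero_iff]
  intro v _
  exact zpow_ne_zero _ (FractionalIdeal.coeIdeal_ne_zero.mpr v.ne_bot)

/-! ## Principal fractional ideals -/

theorem ic_log_valuation502 (v : HeightOneSpectrum (𝓞 K)) (x : K) (hx : x ≠ 0) :
    WithZero.log (v.valuation K x)
      = -(FractionalIdeal.count K v (FractionalIdeal.spanSingleton (𝓞 K)⁰ x)) := by
  classical
  obtain ⟨n, d, hd, rfl⟩ := IsFractionRing.div_surjective (A := 𝓞 K) x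
  have hd0 : d ≠ 0 := nonZeroDivisors.ne_zero hd
  have hn0 : n ≠ 0 := by
    rintro rfl
    simp at hx
  have hI : FractionalIdeal.spanSingleton (𝓞 K)⁰ (algebraMap (𝓞 K) K n / algebraMap (𝓞 K) K d)
      = FractionalIdeal.spanSingleton (𝓞 K)⁰ ((algebraMap (𝓞 K) K) d)⁻¹
        * ((Ideal.span {n} : Ideal (𝓞 K)) : FractionalIdeal (𝓞 K)⁰ K) := by
    rw [FractionalIdeal.coeIdeal_span_singleton, FractionalIdeal.spanSingleton_mul_spanSingleton,
      inv_mul_eq_div]
  have hne : FractionalIdeal.spanSingleton (𝓞 K)⁰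
      (algebraMap (𝓞 K) K n / algebraMap (𝓞 K) K d) ≠ 0 :=
    FractionalIdeal.spanSingleton_ne_zero_iff.2 hx
  rw [FractionalIdeal.count_well_defined K v hne hI, map_div₀,
    HeightOneSpectrum.valuation_of_algebraMap, HeightOneSpectrum.valuation_of_algebraMap,
    HeightOneSpectrum.intValuation_if_neg v hn0, HeightOneSpectrum.intValuation_if_neg v hd0,
    WithZero.log_div WithZero.exp_ne_zero WithZero.exp_ne_zero, WithZero.log_exp,
    WithZero.log_exp]
  ring

theorem ic_norm_principal502 (v : HeightOneSpectrum (𝓞 K)) (x : K) (hx : x ≠ 0) :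
    ‖algebraMap K (v.adicCompletion K) x‖
      = (Ideal.absNorm v.asIdeal : ℝ)
          ^ (-(FractionalIdeal.count K v (FractionalIdeal.spanSingleton (𝓞 K)⁰ x))) := by
  have hx' : algebraMap K (v.adicCompletion K) x ≠ 0 := by
    rw [Ne, map_eq_zero]
    exact hx
  have h1 : algebraMap K (v.adicCompletion K) x = ((x : K) : v.adicCompletion K) := rfl
  rw [ic_norm_eq_zpow502 v _ hx', h1, HeightOneSpectrum.valuedAdicCompletion_eq_valuation',
    ic_log_valuation502 v x hx]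

/-! ## The equivalence relation -/

/-- `a` and `b` differ by an element of `Kˣ` and units at the finite places. -/
def icRel502 (a b : (FiniteAdeleRing (𝓞 K) K)ˣ) : Prop :=
  ∃ l : Kˣ, ∀ v : HeightOneSpectrum (𝓞 K),
    ‖(a : FiniteAdeleRing (𝓞 K) K) v‖
      = ‖algebraMap K (v.adicCompletion K) (l : K)‖ * ‖(b : FiniteAdeleRing (𝓞 K) K) v‖

theorem icRel_refl502 (a : (FiniteAdeleRing (𝓞 K) K)ˣ) : icRel502 a a :=
  ⟨1, fun v => by simp⟩

theorem icRel_symm502 {a b : (FiniteAdeleRing (𝓞 K) K)ˣ} (h : icRel502 a b) : icRel502 b a := by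
  obtain ⟨l, hl⟩ := h
  refine ⟨l⁻¹, fun v => ?_⟩
  have hl0 : ‖algebraMap K (v.adicCompletion K) (l : K)‖ ≠ 0 := by
    rw [norm_ne_zero_iff, Ne, map_eq_zero]
    exact l.ne_zero
  rw [hl v, Units.val_inv_eq_inv_val, map_inv₀, norm_inv, ← mul_assoc, inv_mul_cancel₀ hl0,
    one_mul]

theorem icRel_trans502 {a b c : (FiniteAdeleRing (𝓞 K) K)ˣ} (h : icRel502 a b)
    (h' : icRel502 b c) : icRel502 a c := by
  obtain ⟨l, hl⟩ := h
  obtain ⟨l', hl'⟩ := h'
  refine ⟨l * l', fun v => ?_⟩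
  rw [hl v, hl' v, Units.val_mul, map_mul, norm_mul, mul_assoc]

/-- The class of the fractional ideal of a finite idele. -/
def icCls502 (a : (FiniteAdeleRing (𝓞 K) K)ˣ) : ClassGroup (𝓞 K) :=
  ClassGroup.mk K (Units.mk0 (icIdeal502 a) (icIdeal_ne_zero502 a))

theorem icRel_of_cls502 {a b : (FiniteAdeleRing (𝓞 K) K)ˣ} (h : icCls502 a = icCls502 b) :
    icRel502 a b := by
  unfold icCls502 at h
  set Ia : (FractionalIdeal (𝓞 K)⁰ K)ˣ := Units.mk0 (icIdeal502 a) (icIdeal_ne_zero502 a)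
    with hIa
  set Ib : (FractionalIdeal (𝓞 K)⁰ K)ˣ := Units.mk0 (icIdeal502 b) (icIdeal_ne_zero502 b)
    with hIb
  have h1 : ClassGroup.mk K (Ia * Ib⁻¹) = 1 := by
    rw [map_mul, map_inv, h, mul_inv_cancel]
  rw [ClassGroup.mk_eq_one_iff] at h1
  obtain ⟨x, hx⟩ := (FractionalIdeal.isPrincipal_iff _).1 h1
  have hx0 : x ≠ 0 := by
    rintro rfl
    rw [FractionalIdeal.spanSingleton_zero] at hx
    exact (Ia * Ib⁻¹).ne_zero hx
  have hab : icIdeal502 a = FractionalIdeal.spanSingleton (𝓞 K)⁰ x * icIdeal502 b := by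
    have h2 : ((Ia * Ib⁻¹ : (FractionalIdeal (𝓞 K)⁰ K)ˣ) : FractionalIdeal (𝓞 K)⁰ K)
        = icIdeal502 a * (icIdeal502 b)⁻¹ := by
      rw [Units.val_mul, Units.val_inv_eq_inv_val]
      rfl
    rw [h2] at hx
    rw [← hx, mul_assoc, inv_mul_cancel₀ (icIdeal_ne_zero502 b), mul_one]
  refine ⟨Units.mk0 x hx0, fun v => ?_⟩
  have hc : icOrd502 a v
      = FractionalIdeal.count K v (FractionalIdeal.spanSingleton (𝓞 K)⁰ x) + icOrd502 b v := by
    rw [← ic_count502 a v, ← ic_count502 b v, hab,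
      FractionalIdeal.count_mul K v (FractionalIdeal.spanSingleton_ne_zero_iff.2 hx0)
        (icIdeal_ne_zero502 b)]
  rw [ic_norm502 a v, ic_norm502 b v, Units.val_mk0, ic_norm_principal502 v x hx0, hc,
    neg_add, zpow_add₀ (ic_absNorm_pos502 v).ne']

/-! ## The representatives -/

/-- **T7.14.3d `IdeleClassC`.** -/
theorem ideleClassC502 (K : Type) [Field K] [NumberField K] : IdeleClassC K := by
  classical
  -- the classes which occur, with chosen ideles
  let P : Type := {γ : ClassGroup (𝓞 K) // ∃ a : (FiniteAdeleRing (𝓞 K) K)ˣ, icCls502 a = γ}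
  let r₀ : P → (FiniteAdeleRing (𝓞 K) K)ˣ := fun γ => Classical.choose γ.2
  have hr₀ : ∀ γ : P, icCls502 (r₀ γ) = γ.1 := fun γ => Classical.choose_spec γ.2
  let st : Setoid P :=
    { r := fun γ γ' => icRel502 (r₀ γ) (r₀ γ')
      iseqv := ⟨fun γ => icRel_refl502 _, fun h => icRel_symm502 h,
        fun h h' => icRel_trans502 h h'⟩ }
  have hP : Finite P := Subtype.finite
  have hQ : Finite (Quotient st) := Quotient.finite st
  let e : Quotient st ≃ Fin (Nat.card (Quotient st)) := Finite.equivFin (Quotient st)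
  refine ⟨Nat.card (Quotient st), fun i => r₀ (Quotient.out (e.symm i)), ?_, ?_⟩
  · intro a
    let γ : P := ⟨icCls502 a, a, rfl⟩
    refine ⟨e (Quotient.mk st γ), ?_⟩
    have h1 : icRel502 a (r₀ γ) := icRel_of_cls502 (hr₀ γ).symm
    have h2 : icRel502 (r₀ (Quotient.out (Quotient.mk st γ))) (r₀ γ) :=
      Quotient.mk_out (s := st) γ
    have h3 : icRel502 a (r₀ (Quotient.out (e.symm (e (Quotient.mk st γ))))) := by
      rw [Equiv.symm_apply_apply]
      exact icRel_trans502 h1 (icRel_symm502 h2)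
    exact h3
  · intro i j hij
    have h1 : Quotient.mk st (Quotient.out (e.symm i))
        = Quotient.mk st (Quotient.out (e.symm j)) := Quotient.sound hij
    rw [Quotient.out_eq, Quotient.out_eq] at h1
    exact e.symm.injective h1

end Fermat.Agent.LT.T7.H502

end
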